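/-
S55 / 10h-LEVEL-COLIM (helper49), file 6: naturality of the inflation maps in the module.

`φ : A ⟶ B` in `Rep k G`, `U ⊴ G`: `pushLayer φ U n : Hⁿ(G ⧸ U, A^U) ⟶ Hⁿ(G ⧸ U, B^U)` is Mathlib's
`map (MonoidHom.id _) ((quotientToInvariantsFunctor k U).map φ) n` (same body as
`GlobalInv91.pushQ₂`).  Then
`H1map φ (infl₁ x) = infl₁ (pushLayer φ U 1 x)`, `H2map φ (infl₂ x) = infl₂ (pushLayer φ U 2 x)`,
and `pushLayer` commutes with the transition maps and with restriction on the layers.
-/
import Fermat.Agent.S55.LevelColim49.Res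

set_option autoImplicit false

universe u

open CategoryTheory groupCohomology

noncomputable section

namespace Fermat.Agent.S55.LevelColim49

open Fermat.Agent.S55.Profin15 Fermat.Agent.S55.ProfinGlobal22

variable {k G : Type u} [CommRing k] [Group G] {A B : Rep.{u, u, u} k G} (φ : A ⟶ B)

section Fun

variable (U : Subgroup G) [U.Normal]

/-- the map of layers `A^U ⟶ B^U` -/
abbrev layerMap : layer A U ⟶ layer B U := (Rep.quotientToInvariantsFunctor k U).map φ

lemma incl_layerMap (x : layer A U) : incl B U ((layerMap φ U).hom x) = φ.hom (incl A U x) := rfl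

/-- push-forward on the layers `Hⁿ(G ⧸ U, A^U) ⟶ Hⁿ(G ⧸ U, B^U)` -/
abbrev pushLayer (n : ℕ) : groupCohomology (layer A U) n ⟶ groupCohomology (layer B U) n :=
  map (MonoidHom.id (G ⧸ U)) (layerMap φ U) n

lemma inflFun₁_pushLayer (c : cocycles₁ (layer A U)) :
    inflFun₁ B U ((mapCocycles₁ (MonoidHom.id (G ⧸ U)) (layerMap φ U)).hom c) =
      LevelStr.comp₁ φ.hom.toLinearMap (inflFun₁ A U c) := rfl

lemma inflFun₂_pushLayer (c : cocycles₂ (layer A U)) :
    inflFun₂ B U ((mapCocycles₂ (MonoidHom.id (G ⧸ U)) (layerMap φ U)).hom c) =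
      LevelStr.comp₂ φ.hom.toLinearMap (inflFun₂ A U c) := rfl

end Fun

section Level

variable (𝒰 : LevelStr G) {U : Subgroup G} [U.Normal] (hU : U ∈ 𝒰.levels)

/-- **naturality of `infl₁` in the module** -/
theorem H1map_infl₁ (x : H1 (layer A U)) :
    𝒰.H1map φ.hom.toLinearMap (LevelStr.isEquivariant_hom φ) (infl₁ A 𝒰 hU x) =
      infl₁ B 𝒰 hU ((pushLayer φ U 1).hom x) := by
  induction x using H1_induction_on with | @h c =>
  rw [infl₁_H1π, H1π_comp_map_apply, infl₁_H1π, LevelStr.H1map_H1π]
  congr 1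

/-- **naturality of `infl₂` in the module** -/
theorem H2map_infl₂ (x : H2 (layer A U)) :
    𝒰.H2map φ.hom.toLinearMap (LevelStr.isEquivariant_hom φ) (infl₂ A 𝒰 hU x) =
      infl₂ B 𝒰 hU ((pushLayer φ U 2).hom x) := by
  induction x using H2_induction_on with | @h c =>
  rw [infl₂_H2π, H2π_comp_map_apply, infl₂_H2π, LevelStr.H2map_H2π]
  congr 1

end Level

section Trans

variable {U V : Subgroup G} [U.Normal] [V.Normal] (hVU : V ≤ U)

/-- push-forward commutes with the transition maps (morphism form) -/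
theorem pushLayer_comp_trans (n : ℕ) :
    pushLayer φ U n ≫ map (proj hVU) (inclLayerHom B hVU) n =
      map (proj hVU) (inclLayerHom A hVU) n ≫ pushLayer φ V n := by
  rw [← map_comp, ← map_comp]
  exact map_congr rfl rfl n

/-- push-forward commutes with `trans₁` -/
theorem trans₁_pushLayer (x : H1 (layer A U)) :
    trans₁ B hVU ((pushLayer φ U 1).hom x) = (pushLayer φ V 1).hom (trans₁ A hVU x) := by
  rw [trans₁_eq_map, trans₁_eq_map]
  exact congrArg (fun ψ => ψ.hom x) (pushLayer_comp_trans φ hVU 1)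

/-- push-forward commutes with `trans₂` -/
theorem trans₂_pushLayer (x : H2 (layer A U)) :
    trans₂ B hVU ((pushLayer φ U 2).hom x) = (pushLayer φ V 2).hom (trans₂ A hVU x) := by
  rw [trans₂_eq_map, trans₂_eq_map]
  exact congrArg (fun ψ => ψ.hom x) (pushLayer_comp_trans φ hVU 2)

end Trans

section ResTrans

variable {H : Type u} [Group H] (f : H →* G) (A)
  {U U' : Subgroup G} [U.Normal] [U'.Normal] {V V' : Subgroup H} [V.Normal] [V'.Normal]
  (hVU : V ≤ U.comap f) (hVU' : V' ≤ U'.comap f) (hU : U' ≤ U) (hV : V' ≤ V)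

/-- restriction on the layers commutes with the transition maps (morphism form) -/
theorem resLayer_comp_trans (n : ℕ) :
    resLayer f A hVU n ≫ map (proj hV) (inclLayerHom (Rep.res f A) hV) n =
      map (proj hU) (inclLayerHom A hU) n ≫ resLayer f A hVU' n := by
  rw [← map_comp, ← map_comp]
  have hfg : (quotMap f hVU).comp (proj hV) = (proj hU).comp (quotMap f hVU') := by
    ext h
    rfl
  exact map_congr hfg rfl n

/-- restriction on the layers commutes with `trans₂` -/
theorem trans₂_resLayer (x : H2 (layer A U)) :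
    trans₂ (Rep.res f A) hV ((resLayer f A hVU 2).hom x) =
      (resLayer f A hVU' 2).hom (trans₂ A hU x) := by
  rw [trans₂_eq_map, trans₂_eq_map]
  exact congrArg (fun ψ => ψ.hom x) (resLayer_comp_trans A f hVU hVU' hU hV 2)

/-- restriction on the layers commutes with `trans₁` -/
theorem trans₁_resLayer (x : H1 (layer A U)) :
    trans₁ (Rep.res f A) hV ((resLayer f A hVU 1).hom x) =
      (resLayer f A hVU' 1).hom (trans₁ A hU x) := by
  rw [trans₁_eq_map, trans₁_eq_map]
  exact congrArg (fun ψ => ψ.hom x) (resLayer_comp_trans A f hVU hVU' hU hV 1)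

end ResTrans

end Fermat.Agent.S55.LevelColim49
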