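/-
S55 / 10h-LEVEL-COLIM (helper49), file 1: inflation from the finite layers.

For a group `G` with a level structure `𝒰` (helper15's `Profin15.LevelStr`) and ANY representation
`A : Rep k G` (big discrete modules allowed), every level `U` gives the finite-layer module
`A.quotientToInvariants U : Rep k (G ⧸ U)` (Mathlib: the `U`-invariants of `A` with the action of
the quotient).  This file constructs the inflation maps
`infl₁ : H¹(G ⧸ U, A^U) → 𝒰.H1 A`, `infl₂ : H²(G ⧸ U, A^U) → 𝒰.H2 A`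
from Mathlib's group cohomology of the finite quotient to the level cohomology.
-/
import Fermat.Agent.S55.Profin15.Cohomology
import Fermat.Agent.S55.ProfinGlobal22.Desc

set_option autoImplicit false

universe u

open CategoryTheory groupCohomology

noncomputable section

namespace Fermat.Agent.S55.LevelColim49

open Fermat.Agent.S55.Profin15 Fermat.Agent.S55.ProfinGlobal22

variable {k G : Type u} [CommRing k] [Group G] (A : Rep.{u, u, u} k G)

section Fun

variable (U : Subgroup G) [U.Normal]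

/-- the finite-layer module `A^U` as a representation of `G ⧸ U` -/
abbrev layer : Rep.{u, u, u} k (G ⧸ U) := A.quotientToInvariants U

/-- the inclusion `A^U → A` -/
def incl : layer A U →ₗ[k] A := Submodule.subtype _

lemma incl_injective : Function.Injective (incl A U) := Subtype.val_injective

lemma incl_ρ (g : G) (x : layer A U) :
    incl A U ((layer A U).ρ (g : G ⧸ U) x) = A.ρ g (incl A U x) := rfl

lemma incl_fixed (x : layer A U) (s : G) (hs : s ∈ U) : A.ρ s (incl A U x) = incl A U x :=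
  x.2 ⟨s, hs⟩

lemma mem_range_incl_iff (a : A) :
    a ∈ LinearMap.range (incl A U) ↔ ∀ s ∈ U, A.ρ s a = a := by
  constructor
  · rintro ⟨x, rfl⟩ s hs
    exact incl_fixed A U x s hs
  · intro h
    exact ⟨⟨a, fun s => h s.1 s.2⟩, rfl⟩

/-- inflation of `1`-cochains -/
def inflFun₁ : ((G ⧸ U) → layer A U) →ₗ[k] (G → A) where
  toFun c g := incl A U (c (g : G ⧸ U))
  map_add' _ _ := by ext; simp
  map_smul' _ _ := by ext; simp

/-- inflation of `2`-cochains -/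
def inflFun₂ : ((G ⧸ U) × (G ⧸ U) → layer A U) →ₗ[k] (G × G → A) where
  toFun c x := incl A U (c ((x.1 : G ⧸ U), (x.2 : G ⧸ U)))
  map_add' _ _ := by ext; simp
  map_smul' _ _ := by ext; simp

@[simp] lemma inflFun₁_apply (c : (G ⧸ U) → layer A U) (g : G) :
    inflFun₁ A U c g = incl A U (c (g : G ⧸ U)) := rfl

@[simp] lemma inflFun₂_apply (c : (G ⧸ U) × (G ⧸ U) → layer A U) (g h : G) :
    inflFun₂ A U c (g, h) = incl A U (c ((g : G ⧸ U), (h : G ⧸ U))) := rfl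

lemma inflFun₁_injective : Function.Injective (inflFun₁ A U) := by
  intro c c' h
  funext x
  obtain ⟨g, rfl⟩ := QuotientGroup.mk_surjective x
  exact incl_injective A U (congrFun h g)

lemma inflFun₂_injective : Function.Injective (inflFun₂ A U) := by
  intro c c' h
  funext ⟨x, y⟩
  obtain ⟨g, rfl⟩ := QuotientGroup.mk_surjective x
  obtain ⟨g', rfl⟩ := QuotientGroup.mk_surjective y
  exact incl_injective A U (congrFun h (g, g'))

lemma inflFun₁_const (c : (G ⧸ U) → layer A U) (g s : G) (hs : s ∈ U) :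
    inflFun₁ A U c (g * s) = inflFun₁ A U c g := by
  simp only [inflFun₁_apply]
  congr 2
  exact (QuotientGroup.mk_mul_of_mem g hs)

lemma inflFun₂_const (c : (G ⧸ U) × (G ⧸ U) → layer A U) (g g' s s' : G) (hs : s ∈ U)
    (hs' : s' ∈ U) : inflFun₂ A U c (g * s, g' * s') = inflFun₂ A U c (g, g') := by
  simp only [inflFun₂_apply]
  rw [QuotientGroup.mk_mul_of_mem g hs, QuotientGroup.mk_mul_of_mem g' hs']

lemma inflFun₁_mem_cocycles₁_iff (c : (G ⧸ U) → layer A U) :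
    inflFun₁ A U c ∈ cocycles₁ A ↔ c ∈ cocycles₁ (layer A U) := by
  rw [mem_cocycles₁_iff, mem_cocycles₁_iff]
  constructor
  · intro h x y
    obtain ⟨g, rfl⟩ := QuotientGroup.mk_surjective x
    obtain ⟨g', rfl⟩ := QuotientGroup.mk_surjective y
    apply incl_injective A U
    have := h g g'
    simp only [inflFun₁_apply] at this
    rw [map_add, incl_ρ, ← this]
    rfl
  · intro h g g'
    have := congrArg (incl A U) (h (g : G ⧸ U) (g' : G ⧸ U))
    rw [map_add, incl_ρ] at this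
    simpa using this

lemma inflFun₂_mem_cocycles₂_iff (c : (G ⧸ U) × (G ⧸ U) → layer A U) :
    inflFun₂ A U c ∈ cocycles₂ A ↔ c ∈ cocycles₂ (layer A U) := by
  rw [mem_cocycles₂_iff, mem_cocycles₂_iff]
  constructor
  · intro h x y z
    obtain ⟨g, rfl⟩ := QuotientGroup.mk_surjective x
    obtain ⟨g', rfl⟩ := QuotientGroup.mk_surjective y
    obtain ⟨g'', rfl⟩ := QuotientGroup.mk_surjective z
    apply incl_injective A U
    have := h g g' g''
    simp only [inflFun₂_apply] at this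
    rw [map_add, map_add, incl_ρ]
    exact this
  · intro h g g' g''
    have := congrArg (incl A U) (h (g : G ⧸ U) (g' : G ⧸ U) (g'' : G ⧸ U))
    rw [map_add, map_add, incl_ρ] at this
    simpa using this

lemma d₁₂_inflFun₁ (c : (G ⧸ U) → layer A U) :
    (d₁₂ A).hom (inflFun₁ A U c) = inflFun₂ A U ((d₁₂ (layer A U)).hom c) := by
  funext ⟨g, h⟩
  simp only [d₁₂_hom_apply, inflFun₁_apply, inflFun₂_apply, map_add, map_sub]
  rfl

lemma d₀₁_incl (x : layer A U) :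
    (d₀₁ A).hom (incl A U x) = inflFun₁ A U ((d₀₁ (layer A U)).hom x) := by
  funext g
  rw [inflFun₁_apply, d₀₁_hom_apply, d₀₁_hom_apply, map_sub, incl_ρ]

lemma inflFun₁_mem_coboundaries₁ {c : (G ⧸ U) → layer A U} (hc : c ∈ coboundaries₁ (layer A U)) :
    inflFun₁ A U c ∈ coboundaries₁ A := by
  obtain ⟨x, rfl⟩ := hc
  exact ⟨incl A U x, d₀₁_incl A U x⟩

end Fun

section Level

variable (𝒰 : LevelStr G) {U : Subgroup G} [U.Normal] (hU : U ∈ 𝒰.levels)

include hU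

lemma isConst₁_inflFun₁ (c : (G ⧸ U) → layer A U) : 𝒰.IsConst₁ (inflFun₁ A U c) :=
  ⟨U, hU, fun g s hs => inflFun₁_const A U c g s hs⟩

lemma isConst₂_inflFun₂ (c : (G ⧸ U) × (G ⧸ U) → layer A U) : 𝒰.IsConst₂ (inflFun₂ A U c) :=
  ⟨U, hU, fun g g' s s' hs hs' => inflFun₂_const A U c g g' s s' hs hs'⟩

/-- inflation of `1`-cocycles into the level `1`-cocycles -/
def inflZ₁ : cocycles₁ (layer A U) →ₗ[k] ↥(𝒰.Z₁ A) :=
  LinearMap.codRestrict (𝒰.Z₁ A) (inflFun₁ A U ∘ₗ (cocycles₁ (layer A U)).subtype)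
    (fun c => ⟨(inflFun₁_mem_cocycles₁_iff A U _).2 c.2, isConst₁_inflFun₁ A 𝒰 hU _⟩)

/-- inflation of `2`-cocycles into the level `2`-cocycles -/
def inflZ₂ : cocycles₂ (layer A U) →ₗ[k] ↥(𝒰.Z₂ A) :=
  LinearMap.codRestrict (𝒰.Z₂ A) (inflFun₂ A U ∘ₗ (cocycles₂ (layer A U)).subtype)
    (fun c => ⟨(inflFun₂_mem_cocycles₂_iff A U _).2 c.2, isConst₂_inflFun₂ A 𝒰 hU _⟩)

@[simp] lemma coe_inflZ₁ (c : cocycles₁ (layer A U)) :
    ((inflZ₁ A 𝒰 hU c : ↥(𝒰.Z₁ A)) : G → A) = inflFun₁ A U c := rfl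

@[simp] lemma coe_inflZ₂ (c : cocycles₂ (layer A U)) :
    ((inflZ₂ A 𝒰 hU c : ↥(𝒰.Z₂ A)) : G × G → A) = inflFun₂ A U c := rfl

lemma inflFun₂_mem_B₂ {c : (G ⧸ U) × (G ⧸ U) → layer A U}
    (hc : c ∈ coboundaries₂ (layer A U)) : inflFun₂ A U c ∈ 𝒰.B₂ A := by
  obtain ⟨x, rfl⟩ := hc
  exact (LevelStr.mem_B₂_iff 𝒰 A _).2
    ⟨inflFun₁ A U x, isConst₁_inflFun₁ A 𝒰 hU x, d₁₂_inflFun₁ A U x⟩

/-- **inflation** `H¹(G ⧸ U, A^U) → 𝒰.H1 A` -/
def infl₁ : H1 (layer A U) →ₗ[k] 𝒰.H1 A :=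
  H1desc (layer A U) (𝒰.H1π A ∘ₗ inflZ₁ A 𝒰 hU) (fun c hc => by
    rw [LinearMap.comp_apply, LevelStr.H1π_eq_zero_iff]
    exact inflFun₁_mem_coboundaries₁ A U hc)

/-- **inflation** `H²(G ⧸ U, A^U) → 𝒰.H2 A` -/
def infl₂ : H2 (layer A U) →ₗ[k] 𝒰.H2 A :=
  H2desc (layer A U) (𝒰.H2π A ∘ₗ inflZ₂ A 𝒰 hU) (fun c hc => by
    rw [LinearMap.comp_apply, LevelStr.H2π_eq_zero_iff]
    exact inflFun₂_mem_B₂ A 𝒰 hU hc)

@[simp] lemma infl₁_H1π (c : cocycles₁ (layer A U)) :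
    infl₁ A 𝒰 hU ((H1π (layer A U)).hom c) = 𝒰.H1π A (inflZ₁ A 𝒰 hU c) :=
  H1desc_H1π _ _ _ c

@[simp] lemma infl₂_H2π (c : cocycles₂ (layer A U)) :
    infl₂ A 𝒰 hU ((H2π (layer A U)).hom c) = 𝒰.H2π A (inflZ₂ A 𝒰 hU c) :=
  H2desc_H2π _ _ _ c

end Level

end Fermat.Agent.S55.LevelColim49
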