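/-
S55 / 10h-LEVEL-COLIM (helper49), file 2: level cohomology is the colimit of the finite layers.

Transition maps between the layers, compatibility with inflation, joint surjectivity
(every level class comes from a finite layer) and the kernel criterion (a layer class dies in level
cohomology iff it dies at a smaller level), for ANY smooth representation.
-/
import Fermat.Agent.S55.LevelColim49.Infl

set_option autoImplicit false

universe u

open CategoryTheory groupCohomology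

noncomputable section

namespace Fermat.Agent.S55.LevelColim49

open Fermat.Agent.S55.Profin15 Fermat.Agent.S55.ProfinGlobal22

variable {k G : Type u} [CommRing k] [Group G] (A : Rep.{u, u, u} k G)

section Trans

variable {U V : Subgroup G} [U.Normal] [V.Normal] (hVU : V ≤ U)

/-- the projection `G ⧸ V → G ⧸ U` for `V ≤ U` -/
def proj : G ⧸ V →* G ⧸ U :=
  QuotientGroup.map V U (MonoidHom.id G) (by simpa using hVU)

@[simp] lemma proj_mk (g : G) : proj hVU (g : G ⧸ V) = (g : G ⧸ U) := rfl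

/-- the inclusion `A^U → A^V` for `V ≤ U` -/
def inclLayer : layer A U →ₗ[k] layer A V where
  toFun x := ⟨incl A U x, fun s => incl_fixed A U x s.1 (hVU s.2)⟩
  map_add' _ _ := rfl
  map_smul' _ _ := rfl

@[simp] lemma incl_inclLayer (x : layer A U) : incl A V (inclLayer A hVU x) = incl A U x := rfl

/-- transition of `1`-cochains -/
def transFun₁ : ((G ⧸ U) → layer A U) →ₗ[k] ((G ⧸ V) → layer A V) where
  toFun c x := inclLayer A hVU (c (proj hVU x))
  map_add' _ _ := by ext; simp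
  map_smul' _ _ := by ext; simp

/-- transition of `2`-cochains -/
def transFun₂ : ((G ⧸ U) × (G ⧸ U) → layer A U) →ₗ[k] ((G ⧸ V) × (G ⧸ V) → layer A V) where
  toFun c x := inclLayer A hVU (c (proj hVU x.1, proj hVU x.2))
  map_add' _ _ := by ext; simp
  map_smul' _ _ := by ext; simp

lemma inflFun₁_transFun₁ (c : (G ⧸ U) → layer A U) :
    inflFun₁ A V (transFun₁ A hVU c) = inflFun₁ A U c := rfl

lemma inflFun₂_transFun₂ (c : (G ⧸ U) × (G ⧸ U) → layer A U) :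
    inflFun₂ A V (transFun₂ A hVU c) = inflFun₂ A U c := rfl

lemma transFun₁_mem_cocycles₁ {c : (G ⧸ U) → layer A U} (hc : c ∈ cocycles₁ (layer A U)) :
    transFun₁ A hVU c ∈ cocycles₁ (layer A V) := by
  rw [← inflFun₁_mem_cocycles₁_iff, inflFun₁_transFun₁, inflFun₁_mem_cocycles₁_iff]
  exact hc

lemma transFun₂_mem_cocycles₂ {c : (G ⧸ U) × (G ⧸ U) → layer A U}
    (hc : c ∈ cocycles₂ (layer A U)) : transFun₂ A hVU c ∈ cocycles₂ (layer A V) := by
  rw [← inflFun₂_mem_cocycles₂_iff, inflFun₂_transFun₂, inflFun₂_mem_cocycles₂_iff]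
  exact hc

lemma d₁₂_transFun₁ (x : (G ⧸ U) → layer A U) :
    (d₁₂ (layer A V)).hom (transFun₁ A hVU x) = transFun₂ A hVU ((d₁₂ (layer A U)).hom x) := by
  apply inflFun₂_injective A V
  rw [← d₁₂_inflFun₁, inflFun₁_transFun₁, inflFun₂_transFun₂, d₁₂_inflFun₁]

lemma d₀₁_inclLayer (x : layer A U) :
    (d₀₁ (layer A V)).hom (inclLayer A hVU x) = transFun₁ A hVU ((d₀₁ (layer A U)).hom x) := by
  apply inflFun₁_injective A V
  rw [← d₀₁_incl, inflFun₁_transFun₁, incl_inclLayer, d₀₁_incl]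

lemma transFun₁_mem_coboundaries₁ {c : (G ⧸ U) → layer A U}
    (hc : c ∈ coboundaries₁ (layer A U)) : transFun₁ A hVU c ∈ coboundaries₁ (layer A V) := by
  obtain ⟨x, rfl⟩ := hc
  exact ⟨inclLayer A hVU x, d₀₁_inclLayer A hVU x⟩

lemma transFun₂_mem_coboundaries₂ {c : (G ⧸ U) × (G ⧸ U) → layer A U}
    (hc : c ∈ coboundaries₂ (layer A U)) : transFun₂ A hVU c ∈ coboundaries₂ (layer A V) := by
  obtain ⟨x, rfl⟩ := hc
  exact ⟨transFun₁ A hVU x, d₁₂_transFun₁ A hVU x⟩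

/-- transition of `1`-cocycles -/
def transZ₁ : cocycles₁ (layer A U) →ₗ[k] cocycles₁ (layer A V) :=
  LinearMap.codRestrict _ (transFun₁ A hVU ∘ₗ (cocycles₁ (layer A U)).subtype)
    (fun c => transFun₁_mem_cocycles₁ A hVU c.2)

/-- transition of `2`-cocycles -/
def transZ₂ : cocycles₂ (layer A U) →ₗ[k] cocycles₂ (layer A V) :=
  LinearMap.codRestrict _ (transFun₂ A hVU ∘ₗ (cocycles₂ (layer A U)).subtype)
    (fun c => transFun₂_mem_cocycles₂ A hVU c.2)

@[simp] lemma coe_transZ₁ (c : cocycles₁ (layer A U)) :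
    ((transZ₁ A hVU c : cocycles₁ (layer A V)) : (G ⧸ V) → layer A V) = transFun₁ A hVU c := rfl

@[simp] lemma coe_transZ₂ (c : cocycles₂ (layer A U)) :
    ((transZ₂ A hVU c : cocycles₂ (layer A V)) : (G ⧸ V) × (G ⧸ V) → layer A V) =
      transFun₂ A hVU c := rfl

/-- **transition map** `H¹(G ⧸ U, A^U) → H¹(G ⧸ V, A^V)` for `V ≤ U` (inflation). -/
def trans₁ : H1 (layer A U) →ₗ[k] H1 (layer A V) :=
  H1desc (layer A U) ((H1π (layer A V)).hom ∘ₗ transZ₁ A hVU) (fun c hc => by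
    rw [LinearMap.comp_apply, H1π_eq_zero_iff]
    exact transFun₁_mem_coboundaries₁ A hVU hc)

/-- **transition map** `H²(G ⧸ U, A^U) → H²(G ⧸ V, A^V)` for `V ≤ U` (inflation). -/
def trans₂ : H2 (layer A U) →ₗ[k] H2 (layer A V) :=
  H2desc (layer A U) ((H2π (layer A V)).hom ∘ₗ transZ₂ A hVU) (fun c hc => by
    rw [LinearMap.comp_apply, H2π_eq_zero_iff]
    exact transFun₂_mem_coboundaries₂ A hVU hc)

@[simp] lemma trans₁_H1π (c : cocycles₁ (layer A U)) :
    trans₁ A hVU ((H1π (layer A U)).hom c) = (H1π (layer A V)).hom (transZ₁ A hVU c) :=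
  H1desc_H1π _ _ _ c

@[simp] lemma trans₂_H2π (c : cocycles₂ (layer A U)) :
    trans₂ A hVU ((H2π (layer A U)).hom c) = (H2π (layer A V)).hom (transZ₂ A hVU c) :=
  H2desc_H2π _ _ _ c

end Trans

section Compat

variable (𝒰 : LevelStr G) {U V W : Subgroup G} [U.Normal] [V.Normal] [W.Normal]
  (hU : U ∈ 𝒰.levels) (hV : V ∈ 𝒰.levels) (hVU : V ≤ U)

lemma inflZ₁_transZ₁ (c : cocycles₁ (layer A U)) :
    inflZ₁ A 𝒰 hV (transZ₁ A hVU c) = inflZ₁ A 𝒰 hU c := rfl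

lemma inflZ₂_transZ₂ (c : cocycles₂ (layer A U)) :
    inflZ₂ A 𝒰 hV (transZ₂ A hVU c) = inflZ₂ A 𝒰 hU c := rfl

/-- inflation is compatible with the transition maps -/
theorem infl₁_trans₁ (y : H1 (layer A U)) :
    infl₁ A 𝒰 hV (trans₁ A hVU y) = infl₁ A 𝒰 hU y := by
  obtain ⟨c, rfl⟩ := H1π_surjective (layer A U) y
  rw [trans₁_H1π, infl₁_H1π, infl₁_H1π, inflZ₁_transZ₁]

/-- inflation is compatible with the transition maps -/
theorem infl₂_trans₂ (y : H2 (layer A U)) :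
    infl₂ A 𝒰 hV (trans₂ A hVU y) = infl₂ A 𝒰 hU y := by
  obtain ⟨c, rfl⟩ := H2π_surjective (layer A U) y
  rw [trans₂_H2π, infl₂_H2π, infl₂_H2π, inflZ₂_transZ₂]

omit [U.Normal] [V.Normal] [W.Normal] in
lemma transFun₁_transFun₁ [U.Normal] [V.Normal] [W.Normal] (hWV : W ≤ V)
    (c : (G ⧸ U) → layer A U) :
    transFun₁ A hWV (transFun₁ A hVU c) = transFun₁ A (hWV.trans hVU) c := by
  apply inflFun₁_injective A W
  rw [inflFun₁_transFun₁, inflFun₁_transFun₁, inflFun₁_transFun₁]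

omit [U.Normal] [V.Normal] [W.Normal] in
lemma transFun₂_transFun₂ [U.Normal] [V.Normal] [W.Normal] (hWV : W ≤ V)
    (c : (G ⧸ U) × (G ⧸ U) → layer A U) :
    transFun₂ A hWV (transFun₂ A hVU c) = transFun₂ A (hWV.trans hVU) c := by
  apply inflFun₂_injective A W
  rw [inflFun₂_transFun₂, inflFun₂_transFun₂, inflFun₂_transFun₂]

theorem trans₁_trans₁ (hWV : W ≤ V) (y : H1 (layer A U)) :
    trans₁ A hWV (trans₁ A hVU y) = trans₁ A (hWV.trans hVU) y := by
  obtain ⟨c, rfl⟩ := H1π_surjective (layer A U) y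
  rw [trans₁_H1π, trans₁_H1π, trans₁_H1π]
  congr 1
  exact Subtype.ext (transFun₁_transFun₁ A hVU hWV c)

theorem trans₂_trans₂ (hWV : W ≤ V) (y : H2 (layer A U)) :
    trans₂ A hWV (trans₂ A hVU y) = trans₂ A (hWV.trans hVU) y := by
  obtain ⟨c, rfl⟩ := H2π_surjective (layer A U) y
  rw [trans₂_H2π, trans₂_H2π, trans₂_H2π]
  congr 1
  exact Subtype.ext (transFun₂_transFun₂ A hVU hWV c)

end Compat

section Factor

variable {W : Subgroup G} [W.Normal]

/-- a function constant modulo `W` with `W`-fixed values is inflated from the layer `W` -/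
lemma exists_eq_inflFun₁ (f : G → A) (hc : ∀ g s, s ∈ W → f (g * s) = f g)
    (hfix : ∀ g, ∀ s ∈ W, A.ρ s (f g) = f g) :
    ∃ c : (G ⧸ W) → layer A W, inflFun₁ A W c = f := by
  refine ⟨fun x => ⟨f (Quotient.out x), fun s => hfix _ s.1 s.2⟩, ?_⟩
  funext g
  obtain ⟨h, hh⟩ := QuotientGroup.mk_out_eq_mul W g
  show f (Quotient.out (g : G ⧸ W)) = f g
  rw [hh, hc g h h.2]

/-- a function on `G × G` constant modulo `W` with `W`-fixed values is inflated from the layer -/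
lemma exists_eq_inflFun₂ (f : G × G → A)
    (hc : ∀ g g' s s', s ∈ W → s' ∈ W → f (g * s, g' * s') = f (g, g'))
    (hfix : ∀ x, ∀ s ∈ W, A.ρ s (f x) = f x) :
    ∃ c : (G ⧸ W) × (G ⧸ W) → layer A W, inflFun₂ A W c = f := by
  refine ⟨fun x => ⟨f (Quotient.out x.1, Quotient.out x.2), fun s => hfix _ s.1 s.2⟩, ?_⟩
  funext ⟨g, g'⟩
  obtain ⟨h, hh⟩ := QuotientGroup.mk_out_eq_mul W g
  obtain ⟨h', hh'⟩ := QuotientGroup.mk_out_eq_mul W g'
  show f (Quotient.out (g : G ⧸ W), Quotient.out (g' : G ⧸ W)) = f (g, g')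
  rw [hh, hh', hc g g' h h' h.2 h'.2]

end Factor

section Colim

variable {A} (𝒰 : LevelStr G) (hA : 𝒰.IsSmooth A)

include hA

/-- a level `1`-cochain is inflated from a layer below any given level -/
lemma exists_level_eq_inflFun₁ {f : G → A} (hf : 𝒰.IsConst₁ f) {U₀ : Subgroup G}
    (hU₀ : U₀ ∈ 𝒰.levels) :
    ∃ (W : Subgroup G) (_ : W.Normal) (_ : W ∈ 𝒰.levels) (_ : W ≤ U₀)
      (c : (G ⧸ W) → layer A W), inflFun₁ A W c = f := by
  obtain ⟨V, hV, hfix⟩ := hA.exists_level_of_finite hf.finite_range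
  obtain ⟨V', hV', hV'le⟩ := 𝒰.directed V hV U₀ hU₀
  obtain ⟨W, hW, hle, hc⟩ := hf.exists_le hV'
  have := 𝒰.normal W hW
  obtain ⟨c, hcf⟩ := exists_eq_inflFun₁ A (W := W) f hc
    (fun g s hs => hfix (f g) ⟨g, rfl⟩ s ((hle.trans hV'le).trans inf_le_left hs))
  exact ⟨W, inferInstance, hW, (hle.trans hV'le).trans inf_le_right, c, hcf⟩

/-- a level `2`-cochain is inflated from a layer below any given level -/
lemma exists_level_eq_inflFun₂ {f : G × G → A} (hf : 𝒰.IsConst₂ f) {U₀ : Subgroup G}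
    (hU₀ : U₀ ∈ 𝒰.levels) :
    ∃ (W : Subgroup G) (_ : W.Normal) (_ : W ∈ 𝒰.levels) (_ : W ≤ U₀)
      (c : (G ⧸ W) × (G ⧸ W) → layer A W), inflFun₂ A W c = f := by
  obtain ⟨V, hV, hfix⟩ := hA.exists_level_of_finite hf.finite_range
  obtain ⟨V', hV', hV'le⟩ := 𝒰.directed V hV U₀ hU₀
  obtain ⟨W, hW, hle, hc⟩ := hf.exists_le hV'
  have := 𝒰.normal W hW
  obtain ⟨c, hcf⟩ := exists_eq_inflFun₂ A (W := W) f hc
    (fun x s hs => hfix (f x) ⟨x, rfl⟩ s ((hle.trans hV'le).trans inf_le_left hs))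
  exact ⟨W, inferInstance, hW, (hle.trans hV'le).trans inf_le_right, c, hcf⟩

/-- **joint surjectivity, `H²`**: every level class comes from a finite layer (below any given
level). -/
theorem exists_infl₂_eq (x : 𝒰.H2 A) {U₀ : Subgroup G} (hU₀ : U₀ ∈ 𝒰.levels) :
    ∃ (W : Subgroup G) (_ : W.Normal) (hW : W ∈ 𝒰.levels) (_ : W ≤ U₀)
      (y : H2 (layer A W)), infl₂ A 𝒰 hW y = x := by
  obtain ⟨f, rfl⟩ := Submodule.Quotient.mk_surjective _ x
  obtain ⟨W, hWn, hW, hle, c, hc⟩ := exists_level_eq_inflFun₂ 𝒰 hA f.2.2 hU₀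
  have hcc : c ∈ cocycles₂ (layer A W) := by
    rw [← inflFun₂_mem_cocycles₂_iff, hc]; exact f.2.1
  refine ⟨W, hWn, hW, hle, (H2π (layer A W)).hom ⟨c, hcc⟩, ?_⟩
  rw [infl₂_H2π]
  have : inflZ₂ A 𝒰 hW ⟨c, hcc⟩ = f := Subtype.ext hc
  rw [this]
  rfl

/-- **joint surjectivity, `H¹`**. -/
theorem exists_infl₁_eq (x : 𝒰.H1 A) {U₀ : Subgroup G} (hU₀ : U₀ ∈ 𝒰.levels) :
    ∃ (W : Subgroup G) (_ : W.Normal) (hW : W ∈ 𝒰.levels) (_ : W ≤ U₀)
      (y : H1 (layer A W)), infl₁ A 𝒰 hW y = x := by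
  obtain ⟨f, rfl⟩ := Submodule.Quotient.mk_surjective _ x
  obtain ⟨W, hWn, hW, hle, c, hc⟩ := exists_level_eq_inflFun₁ 𝒰 hA f.2.2 hU₀
  have hcc : c ∈ cocycles₁ (layer A W) := by
    rw [← inflFun₁_mem_cocycles₁_iff, hc]; exact f.2.1
  refine ⟨W, hWn, hW, hle, (H1π (layer A W)).hom ⟨c, hcc⟩, ?_⟩
  rw [infl₁_H1π]
  have : inflZ₁ A 𝒰 hW ⟨c, hcc⟩ = f := Subtype.ext hc
  rw [this]
  rfl

/-- **kernel criterion, `H²`**: a layer class dies in level cohomology iff it dies at a smaller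
level. -/
theorem infl₂_eq_zero_iff {U : Subgroup G} [U.Normal] (hU : U ∈ 𝒰.levels) (y : H2 (layer A U)) :
    infl₂ A 𝒰 hU y = 0 ↔
      ∃ (V : Subgroup G) (_ : V.Normal) (_ : V ∈ 𝒰.levels) (hVU : V ≤ U), trans₂ A hVU y = 0 := by
  constructor
  · intro h
    obtain ⟨c, rfl⟩ := H2π_surjective (layer A U) y
    rw [infl₂_H2π, LevelStr.H2π_eq_zero_iff, LevelStr.mem_B₂_iff] at h
    obtain ⟨x, hx, hdx⟩ := h
    obtain ⟨W, hWn, hW, hle, x', hx'⟩ := exists_level_eq_inflFun₁ 𝒰 hA hx hU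
    refine ⟨W, hWn, hW, hle, ?_⟩
    rw [trans₂_H2π, H2π_eq_zero_iff]
    refine ⟨x', ?_⟩
    apply inflFun₂_injective A W
    rw [← d₁₂_inflFun₁, hx', hdx]
    rfl
  · rintro ⟨V, hVn, hV, hVU, h⟩
    rw [← infl₂_trans₂ A 𝒰 hU hV hVU, h, map_zero]

omit hA in
/-- **inflation is injective on `H¹`** (no smoothness needed). -/
theorem infl₁_injective {U : Subgroup G} [U.Normal] (hU : U ∈ 𝒰.levels) :
    Function.Injective (infl₁ A 𝒰 hU) := by
  rw [injective_iff_map_eq_zero]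
  intro y h
  obtain ⟨c, rfl⟩ := H1π_surjective (layer A U) y
  rw [infl₁_H1π, LevelStr.H1π_eq_zero_iff] at h
  obtain ⟨a, ha⟩ := h
  rw [H1π_eq_zero_iff]
  have hc1 : (c : (G ⧸ U) → layer A U) 1 = 0 := cocycles₁_map_one c
  have hfix : ∀ s ∈ U, A.ρ s a = a := by
    intro s hs
    have h1 := congrFun ha s
    rw [d₀₁_hom_apply] at h1
    have h2 : ((inflZ₁ A 𝒰 hU c : ↥(𝒰.Z₁ A)) : G → A) s = 0 := by
      rw [coe_inflZ₁, inflFun₁_apply, (QuotientGroup.eq_one_iff s).2 hs, hc1, map_zero]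
    rw [h2] at h1
    exact sub_eq_zero.1 h1
  obtain ⟨x, rfl⟩ := (mem_range_incl_iff A U a).2 hfix
  refine ⟨x, ?_⟩
  apply inflFun₁_injective A U
  rw [← d₀₁_incl]
  exact ha

end Colim

end Fermat.Agent.S55.LevelColim49
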