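/-
S55 / 10h-LEVEL-COLIM (helper49), file 3: the transition maps in Mathlib's `groupCohomology.map`
form, and "a layer of a layer is a layer".

* `trans₁ / trans₂` (file 2) are Mathlib's `groupCohomology.map (proj hVU) (inclLayerHom A hVU) n`.
* for `V ≤ U` normal in `G`: with `Γ := G ⧸ V`, `N := U.map (mk' V) ⊴ Γ`, `C := layer A V`,
  the Mathlib inflation `H²(Γ ⧸ N, C^N) ⟶ H²(Γ, C)` (the `f` of `H2InfRes`, `GlobalInv91.infl₂`)
  corresponds to `trans₂ A hVU : H²(G ⧸ U, A^U) → H²(G ⧸ V, A^V)` under the canonical isomorphism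
  `layerLayerIso₂ : H²(Γ ⧸ N, C^N) ≅ H²(G ⧸ U, A^U)`.
-/
import Fermat.Agent.S55.LevelColim49.Colim

set_option autoImplicit false

universe u

open CategoryTheory groupCohomology

noncomputable section

namespace Fermat.Agent.S55.LevelColim49

open Fermat.Agent.S55.Profin15 Fermat.Agent.S55.ProfinGlobal22

variable {k G : Type u} [CommRing k] [Group G] (A : Rep.{u, u, u} k G)

section MapForm

variable {U V : Subgroup G} [U.Normal] [V.Normal] (hVU : V ≤ U)

/-- `inclLayer` as a morphism of representations of `G ⧸ V` -/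
def inclLayerHom : Rep.res (proj hVU) (layer A U) ⟶ layer A V :=
  Rep.ofHom ⟨inclLayer A hVU, fun x => by
    obtain ⟨g, rfl⟩ := QuotientGroup.mk_surjective x
    rfl⟩

@[simp] lemma inclLayerHom_hom_apply (x : layer A U) :
    (inclLayerHom A hVU).hom x = inclLayer A hVU x := rfl

lemma mapCocycles₁_eq_transZ₁ (c : cocycles₁ (layer A U)) :
    (mapCocycles₁ (proj hVU) (inclLayerHom A hVU)).hom c = transZ₁ A hVU c := by
  apply Subtype.ext
  rfl

lemma mapCocycles₂_eq_transZ₂ (c : cocycles₂ (layer A U)) :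
    (mapCocycles₂ (proj hVU) (inclLayerHom A hVU)).hom c = transZ₂ A hVU c := by
  apply Subtype.ext
  rfl

/-- **`trans₁` is Mathlib's `groupCohomology.map`** -/
theorem trans₁_eq_map (x : H1 (layer A U)) :
    trans₁ A hVU x = (map (proj hVU) (inclLayerHom A hVU) 1).hom x := by
  induction x using H1_induction_on with | @h c =>
  rw [trans₁_H1π, H1π_comp_map_apply, mapCocycles₁_eq_transZ₁]

/-- **`trans₂` is Mathlib's `groupCohomology.map`** -/
theorem trans₂_eq_map (x : H2 (layer A U)) :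
    trans₂ A hVU x = (map (proj hVU) (inclLayerHom A hVU) 2).hom x := by
  induction x using H2_induction_on with | @h c =>
  rw [trans₂_H2π, H2π_comp_map_apply, mapCocycles₂_eq_transZ₂]

end MapForm

/-! ### a layer of a layer is a layer -/

section LayerLayer

variable {U V : Subgroup G} [U.Normal] [V.Normal] (hVU : V ≤ U)

/-- `U ⧸ V` as a (normal) subgroup of `G ⧸ V` -/
abbrev quotSub (U V : Subgroup G) [V.Normal] : Subgroup (G ⧸ V) := U.map (QuotientGroup.mk' V)

/-- the third isomorphism `(G ⧸ V) ⧸ (U ⧸ V) ≃* G ⧸ U` -/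
def quotQuot : (G ⧸ V) ⧸ quotSub U V ≃* G ⧸ U :=
  QuotientGroup.quotientQuotientEquivQuotient V U hVU

@[simp] lemma quotQuot_mk_mk (g : G) :
    quotQuot hVU (((g : G ⧸ V) : (G ⧸ V) ⧸ quotSub U V)) = (g : G ⧸ U) := rfl

@[simp] lemma quotQuot_symm_mk (g : G) :
    (quotQuot hVU).symm (g : G ⧸ U) = ((g : G ⧸ V) : (G ⧸ V) ⧸ quotSub U V) := rfl

lemma layerLayer_fixed (y : (layer A V).quotientToInvariants (quotSub U V)) (s : G) (hs : s ∈ U) :
    A.ρ s (incl A V y.1) = incl A V y.1 := by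
  have := y.2 ⟨(s : G ⧸ V), ⟨s, hs, rfl⟩⟩
  exact congrArg (incl A V) this

/-- `(A^V)^{U ⧸ V} ≃ A^U` -/
def layerLayerEquiv :
    ((layer A V).quotientToInvariants (quotSub U V)) ≃ₗ[k] layer A U where
  toFun y := ⟨incl A V y.1, fun s => layerLayer_fixed A y s.1 s.2⟩
  invFun x := ⟨inclLayer A hVU x, by
    rintro ⟨_, s, hs, rfl⟩
    apply Subtype.ext
    exact incl_fixed A U x s hs⟩
  left_inv _ := rfl
  right_inv _ := rfl
  map_add' _ _ := rfl
  map_smul' _ _ := rfl

@[simp] lemma incl_layerLayerEquiv (y : (layer A V).quotientToInvariants (quotSub U V)) :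
    incl A U (layerLayerEquiv A hVU y) = incl A V y.1 := rfl

lemma layerLayerEquiv_comm (x : (G ⧸ V) ⧸ quotSub U V) :
    (layerLayerEquiv A hVU : _ →ₗ[k] layer A U) ∘ₗ
        ((layer A V).quotientToInvariants (quotSub U V)).ρ x =
      (layer A U).ρ (quotQuot hVU x) ∘ₗ (layerLayerEquiv A hVU : _ →ₗ[k] layer A U) := by
  obtain ⟨γ, rfl⟩ := QuotientGroup.mk_surjective x
  obtain ⟨g, rfl⟩ := QuotientGroup.mk_surjective γ
  rfl

/-- **a layer of a layer is a layer**: `Hⁿ((G ⧸ V) ⧸ (U ⧸ V), (A^V)^{U ⧸ V}) ≅ Hⁿ(G ⧸ U, A^U)` -/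
def layerLayerIso (n : ℕ) :
    groupCohomology ((layer A V).quotientToInvariants (quotSub U V)) n ≅
      groupCohomology (layer A U) n :=
  mapIso (quotQuot hVU) (layerLayerEquiv A hVU) (layerLayerEquiv_comm A hVU) n

/-- Mathlib's inflation from the layer `U ⧸ V` of the finite group `G ⧸ V` (the `f` of
`H1InfRes`/`H2InfRes`) factors as `layerLayerIso` followed by the transition map
`groupCohomology.map (proj hVU) (inclLayerHom A hVU)`. -/
theorem layerLayerIso_hom_comp_map (n : ℕ) :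
    (layerLayerIso A hVU n).hom ≫ map (proj hVU) (inclLayerHom A hVU) n =
      map (QuotientGroup.mk' (quotSub U V))
        (Rep.ofHom <| (layer A V).ρ.quotientToInvariants_lift (quotSub U V)) n := by
  rw [layerLayerIso, mapIso_hom, ← map_comp]
  refine map_congr ?_ ?_ n
  · ext g
    rfl
  · rfl

/-- **`trans₂` is the Mathlib inflation** `H²((G ⧸ V) ⧸ (U ⧸ V), (A^V)^{U ⧸ V}) ⟶ H²(G ⧸ V, A^V)`
under `layerLayerIso`. -/
theorem trans₂_layerLayerIso (y : H2 ((layer A V).quotientToInvariants (quotSub U V))) :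
    trans₂ A hVU ((layerLayerIso A hVU 2).hom.hom y) =
      (map (QuotientGroup.mk' (quotSub U V))
        (Rep.ofHom <| (layer A V).ρ.quotientToInvariants_lift (quotSub U V)) 2).hom y := by
  rw [trans₂_eq_map, ← layerLayerIso_hom_comp_map]
  rfl

/-- **`trans₁` is the Mathlib inflation** under `layerLayerIso`. -/
theorem trans₁_layerLayerIso (y : H1 ((layer A V).quotientToInvariants (quotSub U V))) :
    trans₁ A hVU ((layerLayerIso A hVU 1).hom.hom y) =
      (map (QuotientGroup.mk' (quotSub U V))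
        (Rep.ofHom <| (layer A V).ρ.quotientToInvariants_lift (quotSub U V)) 1).hom y := by
  rw [trans₁_eq_map, ← layerLayerIso_hom_comp_map]
  rfl

end LayerLayer

end Fermat.Agent.S55.LevelColim49
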