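/-
S55 / 10h-LEVEL-COLIM (helper49), file 4: inflation–restriction for the layers.

Via "a layer of a layer is a layer" (file 3) the transition maps are Mathlib's inflation maps of
the finite group `G ⧸ V`, so Mathlib's `H1InfRes` and helper9's `InfRes9.H2InfRes` apply:
`trans₁` is injective; if `H¹(U ⧸ V, A^V) = 0` then `trans₂` is injective with image the kernel of
the restriction to `U ⧸ V`; if this holds for all levels `V ≤ U` then `infl₂` is injective
(e.g. unit modules, by Hilbert 90: `Br(E/K) ↪ Br(K)`).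
-/
import Fermat.Agent.S55.LevelColim49.MapForm
import Fermat.Agent.S55.InfRes9.InfRes2

set_option autoImplicit false

universe u

open CategoryTheory groupCohomology Limits

noncomputable section

namespace Fermat.Agent.S55.LevelColim49

open Fermat.Agent.S55.Profin15 Fermat.Agent.S55.ProfinGlobal22

variable {k G : Type u} [CommRing k] [Group G] (A : Rep.{u, u, u} k G)

section Trans

variable {U V : Subgroup G} [U.Normal] [V.Normal] (hVU : V ≤ U)

/-- the transition maps on `H¹` are injective -/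
theorem trans₁_injective : Function.Injective (trans₁ A hVU) := by
  have hmono : Mono (H1InfRes (layer A V) (quotSub U V)).f := inferInstance
  rw [ModuleCat.mono_iff_injective] at hmono
  intro x y hxy
  obtain ⟨x', rfl⟩ : ∃ x', (layerLayerIso A hVU 1).hom.hom x' = x :=
    ⟨(layerLayerIso A hVU 1).inv.hom x, by
      rw [← ModuleCat.comp_apply, Iso.inv_hom_id]; rfl⟩
  obtain ⟨y', rfl⟩ : ∃ y', (layerLayerIso A hVU 1).hom.hom y' = y :=
    ⟨(layerLayerIso A hVU 1).inv.hom y, by
      rw [← ModuleCat.comp_apply, Iso.inv_hom_id]; rfl⟩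
  rw [trans₁_layerLayerIso, trans₁_layerLayerIso] at hxy
  rw [hmono hxy]

/-- if `H¹(U ⧸ V, A^V) = 0` the transition map on `H²` is injective -/
theorem trans₂_injective
    (h1 : IsZero (groupCohomology (Rep.res (quotSub U V).subtype (layer A V)) 1)) :
    Function.Injective (trans₂ A hVU) := by
  have hmono := InfRes9.H2InfRes_mono (layer A V) (quotSub U V) h1
  rw [ModuleCat.mono_iff_injective] at hmono
  intro x y hxy
  obtain ⟨x', rfl⟩ : ∃ x', (layerLayerIso A hVU 2).hom.hom x' = x :=
    ⟨(layerLayerIso A hVU 2).inv.hom x, by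
      rw [← ModuleCat.comp_apply, Iso.inv_hom_id]; rfl⟩
  obtain ⟨y', rfl⟩ : ∃ y', (layerLayerIso A hVU 2).hom.hom y' = y :=
    ⟨(layerLayerIso A hVU 2).inv.hom y, by
      rw [← ModuleCat.comp_apply, Iso.inv_hom_id]; rfl⟩
  rw [trans₂_layerLayerIso, trans₂_layerLayerIso] at hxy
  rw [hmono hxy]

/-- if `H¹(U ⧸ V, A^V) = 0`, a class of `H²(G ⧸ V, A^V)` whose restriction to `U ⧸ V` vanishes
comes from `H²(G ⧸ U, A^U)` -/
theorem exists_trans₂_eq
    (h1 : IsZero (groupCohomology (Rep.res (quotSub U V).subtype (layer A V)) 1))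
    (x : H2 (layer A V))
    (hx : (map (quotSub U V).subtype (𝟙 (Rep.res (quotSub U V).subtype (layer A V))) 2).hom x = 0) :
    ∃ y : H2 (layer A U), trans₂ A hVU y = x := by
  have hex := InfRes9.H2InfRes_exact (layer A V) (quotSub U V) h1
  rw [ShortComplex.moduleCat_exact_iff] at hex
  obtain ⟨y', hy'⟩ := hex x hx
  refine ⟨(layerLayerIso A hVU 2).hom.hom y', ?_⟩
  rw [trans₂_layerLayerIso]
  exact hy'

/-- the composite `H²(G ⧸ U, A^U) → H²(G ⧸ V, A^V) → H²(U ⧸ V, A^V)` vanishes -/
theorem res_trans₂ (y : H2 (layer A U)) :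
    (map (quotSub U V).subtype (𝟙 (Rep.res (quotSub U V).subtype (layer A V))) 2).hom
      (trans₂ A hVU y) = 0 := by
  obtain ⟨y', rfl⟩ : ∃ y', (layerLayerIso A hVU 2).hom.hom y' = y :=
    ⟨(layerLayerIso A hVU 2).inv.hom y, by
      rw [← ModuleCat.comp_apply, Iso.inv_hom_id]; rfl⟩
  rw [trans₂_layerLayerIso]
  have := (InfRes9.H2InfRes (layer A V) (quotSub U V)).zero
  exact congrArg (fun f => f.hom y') this

end Trans

section Infl

variable {A} (𝒰 : LevelStr G) (hA : 𝒰.IsSmooth A)

include hA in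
/-- **inflation is injective on `H²`** as soon as `H¹(U ⧸ V, A^V) = 0` for all levels `V ≤ U`
(Hilbert 90 for unit modules: `Br(E/K) ↪ Br(K)`). -/
theorem infl₂_injective {U : Subgroup G} [U.Normal] (hU : U ∈ 𝒰.levels)
    (h1 : ∀ (V : Subgroup G) [V.Normal], V ∈ 𝒰.levels → V ≤ U →
      IsZero (groupCohomology (Rep.res (quotSub U V).subtype (layer A V)) 1)) :
    Function.Injective (infl₂ A 𝒰 hU) := by
  rw [injective_iff_map_eq_zero]
  intro y hy
  obtain ⟨V, hVn, hV, hVU, h⟩ := (infl₂_eq_zero_iff 𝒰 hA hU y).1 hy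
  exact trans₂_injective A hVU (h1 V hV hVU) (by rw [h, map_zero])

end Infl

end Fermat.Agent.S55.LevelColim49
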