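/-
S55 / 10h-LEVEL-COLIM (helper49), file 8: the carry (tower) classes `δχ ∪ a` of helper91's
`GlobalInv91.Carry` on the layers and in level cohomology.

For a character `χ : G ⧸ U →* Multiplicative (ZMod n)` of a finite layer and an invariant element
`a ∈ A^G`, the inflation of the finite-level class `carryH2 (layer A U) χ a` is the class of the
level cocycle `carry A (χ ∘ mk) a` (the shape of `LocInv28.Abstract.InvDatum.cls`), and the
transition maps send carry classes to carry classes.
-/
import Fermat.Agent.S55.LevelColim49.Colim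
import Fermat.Agent.S55.GlobalInv91.Carry

set_option autoImplicit false

universe u

open CategoryTheory groupCohomology

noncomputable section

namespace Fermat.Agent.S55.LevelColim49

open Fermat.Agent.S55.Profin15 Fermat.Agent.S55.ProfinGlobal22 Fermat.Agent.S55.GlobalInv91

variable {k G : Type u} [CommRing k] [Group G] (A : Rep.{u, u, u} k G) {n : ℕ} [NeZero n]

section Fun

variable (U : Subgroup G) [U.Normal]

/-- a `G`-invariant element of `A`, as a `G ⧸ U`-invariant element of the layer `A^U` -/
def toLayerInv : A.ρ.invariants →ₗ[k] (layer A U).ρ.invariants where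
  toFun a := ⟨⟨a.1, fun s => a.2 s.1⟩, fun x => by
    obtain ⟨g, rfl⟩ := QuotientGroup.mk_surjective x
    exact Subtype.ext (a.2 g)⟩
  map_add' _ _ := rfl
  map_smul' _ _ := rfl

@[simp] lemma incl_toLayerInv (a : A.ρ.invariants) :
    incl A U (toLayerInv A U a).1 = a.1 := rfl

/-- a `G ⧸ U`-invariant element of the layer is a `G`-invariant element of `A` -/
def ofLayerInv : (layer A U).ρ.invariants →ₗ[k] A.ρ.invariants where
  toFun a := ⟨incl A U a.1, fun g => congrArg (incl A U) (a.2 (g : G ⧸ U))⟩
  map_add' _ _ := rfl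
  map_smul' _ _ := rfl

@[simp] lemma coe_ofLayerInv (a : (layer A U).ρ.invariants) :
    ((ofLayerInv A U a : A.ρ.invariants) : A) = incl A U a.1 := rfl

lemma toLayerInv_ofLayerInv (a : (layer A U).ρ.invariants) :
    toLayerInv A U (ofLayerInv A U a) = a := rfl

lemma ofLayerInv_toLayerInv (a : A.ρ.invariants) : ofLayerInv A U (toLayerInv A U a) = a := rfl

omit [NeZero n] in
/-- inflation of a carry cochain is the carry cochain of the inflated character -/
lemma inflFun₂_carry (χ : G ⧸ U →* Multiplicative (ZMod n)) (a : layer A U) :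
    inflFun₂ A U (carry (layer A U) χ a) =
      carry A (χ.comp (QuotientGroup.mk' U)) (incl A U a) := by
  funext ⟨g, h⟩
  simp only [inflFun₂_apply]
  exact map_nsmul (incl A U) _ _

end Fun

section Level

variable (𝒰 : LevelStr G) {U : Subgroup G} [U.Normal] (hU : U ∈ 𝒰.levels)

include hU in
/-- the carry cocycle of a character factoring through a level is a level cocycle -/
lemma carry_comp_mk_mem_Z₂ (χ : G ⧸ U →* Multiplicative (ZMod n)) (a : A.ρ.invariants) :
    carry A (χ.comp (QuotientGroup.mk' U)) (a : A) ∈ 𝒰.Z₂ A := by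
  refine ⟨carry_mem_cocycles₂ A _ (a : A) (fun g => a.2 g), ?_⟩
  rw [← incl_toLayerInv A U a, ← inflFun₂_carry]
  exact isConst₂_inflFun₂ A 𝒰 hU _

/-- **inflation of a finite-level carry class is the level carry class** -/
theorem infl₂_carryH2 (χ : G ⧸ U →* Multiplicative (ZMod n)) (a : A.ρ.invariants)
    (hmem : carry A (χ.comp (QuotientGroup.mk' U)) (a : A) ∈ 𝒰.Z₂ A) :
    infl₂ A 𝒰 hU (carryH2 (layer A U) χ (toLayerInv A U a)) =
      𝒰.H2π A ⟨carry A (χ.comp (QuotientGroup.mk' U)) (a : A), hmem⟩ := by
  rw [carryH2_apply]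
  erw [infl₂_H2π]
  congr 1

/-- the same for an invariant element of the layer -/
theorem infl₂_carryH2' (χ : G ⧸ U →* Multiplicative (ZMod n)) (a : (layer A U).ρ.invariants)
    (hmem : carry A (χ.comp (QuotientGroup.mk' U)) (incl A U a.1) ∈ 𝒰.Z₂ A) :
    infl₂ A 𝒰 hU (carryH2 (layer A U) χ a) =
      𝒰.H2π A ⟨carry A (χ.comp (QuotientGroup.mk' U)) (incl A U a.1), hmem⟩ :=
  infl₂_carryH2 A 𝒰 hU χ (ofLayerInv A U a) hmem

end Level

section Trans

variable {U V : Subgroup G} [U.Normal] [V.Normal] (hVU : V ≤ U)

omit [NeZero n] in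
lemma transFun₂_carry (χ : G ⧸ U →* Multiplicative (ZMod n)) (a : layer A U) :
    transFun₂ A hVU (carry (layer A U) χ a) =
      carry (layer A V) (χ.comp (proj hVU)) (inclLayer A hVU a) := by
  funext ⟨g, h⟩
  exact map_nsmul (inclLayer A hVU) _ _

/-- **the transition maps send carry classes to carry classes** -/
theorem trans₂_carryH2 (χ : G ⧸ U →* Multiplicative (ZMod n)) (a : A.ρ.invariants) :
    trans₂ A hVU (carryH2 (layer A U) χ (toLayerInv A U a)) =
      carryH2 (layer A V) (χ.comp (proj hVU)) (toLayerInv A V a) := by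
  rw [carryH2_apply, carryH2_apply]
  erw [trans₂_H2π]
  congr 1

end Trans

end Fermat.Agent.S55.LevelColim49
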