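/-
S55 / 10h-LEVEL-COLIM (helper49), file 7: bridge to helper91's `GlobalInv91.DoubleQuot` vocabulary.

`GlobalInv91.trans₂` (a `groupCohomology.map`) is `LevelColim49.trans₂` (defined on cocycles),
`GlobalInv91.pushQ₂` is `LevelColim49.pushLayer _ _ 2`, `GlobalInv91.dqIso` is `layerLayerIso _ _ 2`.
So the finite-level output of 35-GEN (`alpha_trans`, `reciprocity_trans`, `hasse_trans`) speaks
about the transition maps of the presentation `LimDesc99.presH2`.
-/
import Fermat.Agent.S55.LevelColim49.Nat
import Fermat.Agent.S55.GlobalInv91.DoubleQuot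

set_option autoImplicit false

universe u

open CategoryTheory groupCohomology

noncomputable section

namespace Fermat.Agent.S55.LevelColim49

variable {k G : Type u} [CommRing k] [Group G] (A : Rep.{u, u, u} k G)
  {U V : Subgroup G} [U.Normal] [V.Normal] (hVU : V ≤ U)

/-- helper91's transition map is the transition map of `LevelColim49` -/
theorem trans₂91_eq (x : H2 (layer A U)) :
    (GlobalInv91.trans₂ A hVU).hom x = trans₂ A hVU x := by
  rw [trans₂_eq_map]
  rfl

/-- helper91's push-forward on a quotient is `pushLayer` -/
theorem pushQ₂91_eq {B : Rep.{u, u, u} k G} (φ : A ⟶ B) (x : H2 (layer A U)) :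
    (GlobalInv91.pushQ₂ φ U).hom x = (pushLayer φ U 2).hom x := rfl

/-- helper91's double-quotient isomorphism is `layerLayerIso` in degree `2` -/
theorem dqIso91_eq (y : H2 ((layer A V).quotientToInvariants (quotSub U V))) :
    (GlobalInv91.dqIso A hVU).hom.hom y = (layerLayerIso A hVU 2).hom.hom y := rfl

end Fermat.Agent.S55.LevelColim49
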