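/-
S55 / 10h-LEVEL-COLIM (helper49), file 5: restriction along a group homomorphism on the layers.

`f : H →* G`, `A : Rep k G`, `U ⊴ G`, `V ⊴ H` with `V ≤ U.comap f`.  Then `f` induces
`H ⧸ V →* G ⧸ U` and `A^U → (res f A)^V`, hence Mathlib's
`resLayer f A hVU n : Hⁿ(G ⧸ U, A^U) ⟶ Hⁿ(H ⧸ V, (res f A)^V)`.
For level structures `𝒱` on `H`, `𝒰` on `G` with `f` level-continuous, restriction on level
cohomology (`Profin15.LevelStr.IsContinuous.res₁/res₂`, `LevelStr.res₁/res₂` for `𝒰.comap f`)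
is computed on the layers:  `res₂ (infl₂ x) = infl₂ (resLayer x)`.
Instances: `f = S.subtype` (open subgroup), `f = primeLocalToGlobal q` (localisation).
-/
import Fermat.Agent.S55.LevelColim49.MapForm
import Fermat.Agent.S55.Profin15.Restriction

set_option autoImplicit false

universe u

open CategoryTheory groupCohomology

noncomputable section

namespace Fermat.Agent.S55.LevelColim49

open Fermat.Agent.S55.Profin15 Fermat.Agent.S55.ProfinGlobal22

variable {k G H : Type u} [CommRing k] [Group G] [Group H] (f : H →* G) (A : Rep.{u, u, u} k G)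

section Fun

variable {U : Subgroup G} [U.Normal] {V : Subgroup H} [V.Normal] (hVU : V ≤ U.comap f)

/-- the homomorphism `H ⧸ V →* G ⧸ U` induced by `f` -/
def quotMap : H ⧸ V →* G ⧸ U := QuotientGroup.map V U f hVU

@[simp] lemma quotMap_mk (h : H) : quotMap f hVU (h : H ⧸ V) = (f h : G ⧸ U) := rfl

/-- `A^U → (res f A)^V` -/
def resLayerLin : layer A U →ₗ[k] layer (Rep.res f A) V where
  toFun x := ⟨incl A U x, fun v => incl_fixed A U x (f v.1) (hVU v.2)⟩
  map_add' _ _ := rfl
  map_smul' _ _ := rfl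

@[simp] lemma incl_resLayerLin (x : layer A U) :
    incl (Rep.res f A) V (resLayerLin f A hVU x) = incl A U x := rfl

/-- `A^U → (res f A)^V` as a morphism of representations of `H ⧸ V` -/
def resLayerHom : Rep.res (quotMap f hVU) (layer A U) ⟶ layer (Rep.res f A) V :=
  Rep.ofHom ⟨resLayerLin f A hVU, fun x => by
    obtain ⟨h, rfl⟩ := QuotientGroup.mk_surjective x
    rfl⟩

@[simp] lemma resLayerHom_hom_apply (x : layer A U) :
    (resLayerHom f A hVU).hom x = resLayerLin f A hVU x := rfl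

/-- **restriction on the layers** `Hⁿ(G ⧸ U, A^U) ⟶ Hⁿ(H ⧸ V, (res f A)^V)` -/
abbrev resLayer (n : ℕ) :
    groupCohomology (layer A U) n ⟶ groupCohomology (layer (Rep.res f A) V) n :=
  map (quotMap f hVU) (resLayerHom f A hVU) n

lemma inflFun₁_mapCocycles₁ (c : cocycles₁ (layer A U)) :
    inflFun₁ (Rep.res f A) V ((mapCocycles₁ (quotMap f hVU) (resLayerHom f A hVU)).hom c) =
      LevelStr.pull₁ f A (inflFun₁ A U c) := rfl

lemma inflFun₂_mapCocycles₂ (c : cocycles₂ (layer A U)) :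
    inflFun₂ (Rep.res f A) V ((mapCocycles₂ (quotMap f hVU) (resLayerHom f A hVU)).hom c) =
      LevelStr.pull₂ f A (inflFun₂ A U c) := rfl

end Fun

section Level

variable {𝒱 : LevelStr H} {𝒰 : LevelStr G} (hf : LevelStr.IsContinuous 𝒱 𝒰 f)
  {U : Subgroup G} [U.Normal] {V : Subgroup H} [V.Normal] (hU : U ∈ 𝒰.levels) (hV : V ∈ 𝒱.levels)
  (hVU : V ≤ U.comap f)

/-- **restriction is computed on the layers, `H¹`** -/
theorem res₁_infl₁ (x : H1 (layer A U)) :
    hf.res₁ A (infl₁ A 𝒰 hU x) = infl₁ (Rep.res f A) 𝒱 hV ((resLayer f A hVU 1).hom x) := by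
  induction x using H1_induction_on with | @h c =>
  rw [infl₁_H1π, H1π_comp_map_apply, infl₁_H1π, LevelStr.IsContinuous.res₁_H1π]
  congr 1

/-- **restriction is computed on the layers, `H²`** -/
theorem res₂_infl₂ (x : H2 (layer A U)) :
    hf.res₂ A (infl₂ A 𝒰 hU x) = infl₂ (Rep.res f A) 𝒱 hV ((resLayer f A hVU 2).hom x) := by
  induction x using H2_induction_on with | @h c =>
  rw [infl₂_H2π, H2π_comp_map_apply, infl₂_H2π, LevelStr.IsContinuous.res₂_H2π]
  congr 1

end Level

section Comap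

variable (𝒰 : LevelStr G) {U : Subgroup G} [U.Normal] (hU : U ∈ 𝒰.levels)

include hU in
omit [U.Normal] in
lemma comap_mem_levels : U.comap f ∈ (𝒰.comap f).levels := ⟨U, hU, rfl⟩

/-- the pulled-back level structure: `res₁ (infl₁ x) = infl₁ (resLayer x)` at the level
`U.comap f` -/
theorem comap_res₁_infl₁ (x : H1 (layer A U)) :
    𝒰.res₁ f A (infl₁ A 𝒰 hU x) =
      infl₁ (Rep.res f A) (𝒰.comap f) (comap_mem_levels f 𝒰 hU)
        ((resLayer f A (le_refl (U.comap f)) 1).hom x) :=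
  res₁_infl₁ f A (LevelStr.isContinuous_comap 𝒰 f) hU (comap_mem_levels f 𝒰 hU) le_rfl x

/-- the pulled-back level structure: `res₂ (infl₂ x) = infl₂ (resLayer x)` at the level
`U.comap f` -/
theorem comap_res₂_infl₂ (x : H2 (layer A U)) :
    𝒰.res₂ f A (infl₂ A 𝒰 hU x) =
      infl₂ (Rep.res f A) (𝒰.comap f) (comap_mem_levels f 𝒰 hU)
        ((resLayer f A (le_refl (U.comap f)) 2).hom x) :=
  res₂_infl₂ f A (LevelStr.isContinuous_comap 𝒰 f) hU (comap_mem_levels f 𝒰 hU) le_rfl x

end Comap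

end Fermat.Agent.S55.LevelColim49
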